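import Fermat.Agent.Perfect.SuccessiveMinima
import Mathlib.Analysis.Convex.Topology
import Mathlib.Analysis.LocallyConvex.Separation
import Mathlib.Data.Int.Interval
import Mathlib.Data.Pi.Interval
import Mathlib.Data.ZMod.Basic

/-!
# Doignon's theorem

Two of more than `2 ^ n` integral points are congruent modulo two, and their midpoint is integral.
So among finitely many integral points a minimal system of strict inequalities without a solution
has at most `2 ^ n` members: otherwise push each bound up to a witness and take a midpoint.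
-/

set_option autoImplicit false

noncomputable section

open FA.Perfect

namespace FA.Doignon

variable {n : ℕ}

theorem exists_midpoint {ι : Type*} {s : Finset ι} (h : 2 ^ n < s.card) (p : ι → Fin n → ℤ) :
    ∃ a ∈ s, ∃ b ∈ s, a ≠ b ∧ ∃ q, p a + p b = (2 : ℤ) • q := by
  classical
  obtain ⟨a, ha, b, hb, hab, he⟩ := Finset.exists_ne_map_eq_of_card_lt_of_maps_to
    (t := (Finset.univ : Finset (Fin n → ZMod 2))) (f := fun a i => (p a i : ZMod 2)) (by
      rwa [Finset.card_univ, Fintype.card_fun, ZMod.card, Fintype.card_fin])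
    fun _ _ => Finset.mem_univ _
  refine ⟨a, ha, b, hb, hab, fun i => (p a i + p b i) / 2, funext fun i => ?_⟩
  have h2 : ((p a i + p b i : ℤ) : ZMod 2) = 0 := by
    rw [Int.cast_add, show (p a i : ZMod 2) = p b i from congrFun he i, CharTwo.add_self_eq_zero]
  have h3 := (ZMod.intCast_zmod_eq_zero_iff_dvd _ 2).1 h2
  simp only [Pi.add_apply, Pi.smul_apply, smul_eq_mul]
  exact (Int.mul_ediv_cancel' (by exact_mod_cast h3)).symm

theorem castVec_two_smul {x y q : Fin n → ℤ} (h : x + y = (2 : ℤ) • q) :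
    castVec x + castVec y = (2 : ℝ) • castVec q := by
  funext i
  have := congrArg (fun z : ℤ => (z : ℝ)) (congrFun h i)
  simpa [castVec] using this

variable {ι : Type*} (f : ι → (Fin n → ℝ) →ₗ[ℝ] ℝ)

/-- Raise the bounds in `T` until a point that meets the others attains each. -/
theorem exists_pushed (X : Finset (Fin n → ℤ)) (I T : Finset ι) (hT : T ⊆ I) (c : ι → ℝ)
    (hnone : ∀ x ∈ X, ∃ i ∈ I, c i ≤ f i (castVec x))
    (hwit : ∀ i ∈ I, ∃ x ∈ X, ∀ j ∈ I, j ≠ i → f j (castVec x) < c j) :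
    ∃ c' : ι → ℝ, (∀ i, c i ≤ c' i) ∧ (∀ x ∈ X, ∃ i ∈ I, c' i ≤ f i (castVec x)) ∧
      ∀ i ∈ T, ∃ x ∈ X, f i (castVec x) = c' i ∧ ∀ j ∈ I, j ≠ i → f j (castVec x) < c' j := by
  classical
  induction T using Finset.induction with
  | empty => exact ⟨c, fun _ => le_rfl, hnone, by simp⟩
  | insert k T hk ih =>
    obtain ⟨c', hc, hnone', hT'⟩ := ih ((Finset.subset_insert k T).trans hT)
    have hkI : k ∈ I := hT (Finset.mem_insert_self k T)
    set W := X.filter fun x => ∀ j ∈ I, j ≠ k → f j (castVec x) < c' j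
    have hW : W.Nonempty := by
      obtain ⟨x, hx, hx'⟩ := hwit k hkI
      exact ⟨x, Finset.mem_filter.2 ⟨hx, fun j hj hjk => (hx' j hj hjk).trans_le (hc j)⟩⟩
    obtain ⟨p, hp, hmin⟩ := W.exists_min_image (fun x => f k (castVec x)) hW
    obtain ⟨hpX, hpj⟩ := Finset.mem_filter.1 hp
    have hle : c' k ≤ f k (castVec p) := by
      obtain ⟨i, hi, hi'⟩ := hnone' p hpX
      rcases eq_or_ne i k with rfl | hik
      · exact hi'
      · exact absurd (hpj i hi hik) hi'.not_gt
    refine ⟨Function.update c' k (f k (castVec p)), fun i => ?_, fun x hx => ?_, fun i hi => ?_⟩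
    · rcases eq_or_ne i k with rfl | hik
      · rw [Function.update_self]
        exact (hc i).trans hle
      · rw [Function.update_of_ne hik]
        exact hc i
    · by_cases h : x ∈ W
      · exact ⟨k, hkI, by rw [Function.update_self]; exact hmin x h⟩
      · simp only [W, Finset.mem_filter, hx, true_and, not_forall, not_lt] at h
        obtain ⟨j, hj, hjk, hj'⟩ := h
        exact ⟨j, hj, by rw [Function.update_of_ne hjk]; exact hj'⟩
    · rcases Finset.mem_insert.1 hi with rfl | hi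
      · refine ⟨p, hpX, by rw [Function.update_self], fun j hj hji => ?_⟩
        rw [Function.update_of_ne hji]
        exact hpj j hj hji
      · have hik : i ≠ k := fun h => hk (h ▸ hi)
        obtain ⟨x, hx, hxi, hxj⟩ := hT' i hi
        refine ⟨x, hx, by rw [Function.update_of_ne hik]; exact hxi, fun j hj hji => ?_⟩
        rcases eq_or_ne j k with rfl | hjk
        · rw [Function.update_self]
          exact (hxj j hj hji).trans_le hle
        · rw [Function.update_of_ne hjk]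
          exact hxj j hj hji

/-- **Scarf's lemma** on a finite set closed under integral midpoints. -/
theorem exists_small_subsystem {X : Finset (Fin n → ℤ)}
    (hX : ∀ x ∈ X, ∀ y ∈ X, ∀ q, x + y = (2 : ℤ) • q → q ∈ X) (c : ι → ℝ) (s : Finset ι)
    (hnone : ∀ x ∈ X, ∃ i ∈ s, c i ≤ f i (castVec x)) :
    ∃ I ⊆ s, I.card ≤ 2 ^ n ∧ ∀ x ∈ X, ∃ i ∈ I, c i ≤ f i (castVec x) := by
  classical
  induction s using Finset.strongInduction with
  | _ s ih =>
    rcases le_or_gt s.card (2 ^ n) with hs | hs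
    · exact ⟨s, subset_rfl, hs, hnone⟩
    by_cases h : ∃ k ∈ s, ∀ x ∈ X, ∃ i ∈ s.erase k, c i ≤ f i (castVec x)
    · obtain ⟨k, hk, hk'⟩ := h
      obtain ⟨I, hI, hI'⟩ := ih _ (Finset.erase_ssubset hk) hk'
      exact ⟨I, hI.trans (Finset.erase_subset k s), hI'⟩
    exfalso
    have hwit : ∀ i ∈ s, ∃ x ∈ X, ∀ j ∈ s, j ≠ i → f j (castVec x) < c j := fun i hi => by
      by_contra h'
      refine h ⟨i, hi, fun x hx => ?_⟩
      by_contra h''
      exact h' ⟨x, hx, fun j hj hji => not_le.1 fun hle =>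
        h'' ⟨j, Finset.mem_erase.2 ⟨hji, hj⟩, hle⟩⟩
    obtain ⟨c', -, hnone', hwit'⟩ := exists_pushed f X s s subset_rfl c hnone hwit
    choose p hp hpe hpj using hwit'
    obtain ⟨a, -, b, -, hab, q, hq⟩ := exists_midpoint (s := s.attach)
      (by rwa [Finset.card_attach]) fun i => p i.1 i.2
    have hne : a.1 ≠ b.1 := fun e => hab (Subtype.ext e)
    obtain ⟨i, hi, hle⟩ := hnone' q (hX _ (hp a.1 a.2) _ (hp b.1 b.2) q hq)
    have hsum : f i (castVec (p a.1 a.2)) + f i (castVec (p b.1 b.2)) = 2 * f i (castVec q) := by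
      rw [← map_add, castVec_two_smul hq, map_smul, smul_eq_mul]
    rcases eq_or_ne i a.1 with rfl | hia
    · linarith [hpe a.1 a.2, hpj b.1 b.2 a.1 a.2 hne]
    rcases eq_or_ne i b.1 with rfl | hib
    · linarith [hpe b.1 b.2, hpj a.1 a.2 b.1 b.2 hne.symm]
    linarith [hpj a.1 a.2 i hi hia, hpj b.1 b.2 i hi hib]

theorem finite_castVec_mem {B : Set (Fin n → ℝ)} (hB : Bornology.IsBounded B) :
    {v : Fin n → ℤ | castVec v ∈ B}.Finite := by
  obtain ⟨R, hR⟩ := hB.exists_norm_le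
  refine (Set.finite_Icc (fun _ : Fin n => -⌈R⌉) fun _ => ⌈R⌉).subset fun v hv => ?_
  have h : ∀ i, |(v i : ℝ)| ≤ ⌈R⌉ := fun i =>
    ((norm_le_pi_norm (castVec v) i).trans (hR _ hv)).trans (Int.le_ceil R)
  exact ⟨fun i => by exact_mod_cast (abs_le.1 (h i)).1,
    fun i => by exact_mod_cast (abs_le.1 (h i)).2⟩

/-- **Doignon's theorem.** -/
theorem exists_common {κ : Type*} (F : κ → Set (Fin n → ℝ)) (hF : ∀ k, Convex ℝ (F k))
    (s : Finset κ) (h : ∀ I ⊆ s, I.card ≤ 2 ^ n → ∃ v, ∀ k ∈ I, castVec v ∈ F k) :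
    ∃ v, ∀ k ∈ s, castVec v ∈ F k := by
  classical
  obtain ⟨T, hT⟩ : ∃ T, T = s.powerset.filter fun I => I.card ≤ 2 ^ n := ⟨_, rfl⟩
  have hTmem : ∀ I ∈ T, I ⊆ s ∧ I.card ≤ 2 ^ n := fun I hI => by
    rw [hT, Finset.mem_filter, Finset.mem_powerset] at hI
    exact hI
  choose w hw using fun I : {I // I ∈ T} => h I.1 (hTmem I.1 I.2).1 (hTmem I.1 I.2).2
  obtain ⟨P, hP⟩ : ∃ P : Set (Fin n → ℝ), P = Set.range fun I => castVec (w I) := ⟨_, rfl⟩
  have hPfin : P.Finite := hP ▸ Set.finite_range _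
  obtain ⟨X, hX⟩ : ∃ X, X = (finite_castVec_mem
      (hPfin.isCompact_convexHull (𝕜 := ℝ)).isBounded).toFinset := ⟨_, rfl⟩
  have hXmem : ∀ v, v ∈ X ↔ castVec v ∈ convexHull ℝ P := fun v => by
    rw [hX, Set.Finite.mem_toFinset]
    rfl
  have hwX : ∀ I, w I ∈ X := fun I =>
    (hXmem _).2 (subset_convexHull ℝ P (hP ▸ Set.mem_range_self I))
  by_contra! hno
  have hsep : ∀ x : {x // x ∈ X}, ∃ k ∈ s, ∃ (f : (Fin n → ℝ) →ₗ[ℝ] ℝ) (u : ℝ),
      (∀ y ∈ P ∩ F k, f y < u) ∧ u ≤ f (castVec x.1) := fun x => by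
    obtain ⟨k, hk, hk'⟩ := hno x.1
    obtain ⟨f, u, hf, hu⟩ := geometric_hahn_banach_closed_point (convex_convexHull ℝ (P ∩ F k))
      ((hPfin.subset Set.inter_subset_left).isClosed_convexHull ℝ)
      fun hmem => hk' (convexHull_min Set.inter_subset_right (hF k) hmem)
    exact ⟨k, hk, f.toLinearMap, u, fun y hy => hf y (subset_convexHull ℝ _ hy), hu.le⟩
  choose k hks f u hf hu using hsep
  obtain ⟨J, -, hJ, hJno⟩ := exists_small_subsystem f (X := X) (fun x hx y hy q hq => by
      rw [hXmem] at hx hy ⊢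
      have e : castVec q = (1 / 2 : ℝ) • castVec x + (1 / 2 : ℝ) • castVec y := by
        rw [← smul_add, castVec_two_smul hq, smul_smul]
        norm_num
      rw [e]
      exact (convex_convexHull ℝ P) hx hy (by norm_num) (by norm_num) (by norm_num))
    u X.attach fun x hx => ⟨⟨x, hx⟩, Finset.mem_attach _ _, hu ⟨x, hx⟩⟩
  have hIT : J.image k ∈ T := by
    rw [hT, Finset.mem_filter, Finset.mem_powerset]
    exact ⟨Finset.image_subset_iff.2 fun x _ => hks x, Finset.card_image_le.trans hJ⟩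
  obtain ⟨x, hx, hle⟩ := hJno _ (hwX ⟨_, hIT⟩)
  exact (hf x _ ⟨hP ▸ Set.mem_range_self _, hw ⟨_, hIT⟩ (k x)
    (Finset.mem_image_of_mem k hx)⟩).not_ge hle

/-- For compact sets the family may be infinite. -/
theorem exists_common_compact {κ : Type*} (F : κ → Set (Fin n → ℝ)) (hF : ∀ k, Convex ℝ (F k))
    (hc : ∀ k, IsCompact (F k))
    (h : ∀ I : Finset κ, I.card ≤ 2 ^ n → ∃ v, ∀ k ∈ I, castVec v ∈ F k) :
    ∃ v, ∀ k, castVec v ∈ F k := by
  classical
  rcases isEmpty_or_nonempty κ with hκ | ⟨⟨k₀⟩⟩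
  · exact ⟨0, isEmptyElim⟩
  by_contra! hno
  choose g hg using hno
  obtain ⟨v, hv⟩ := exists_common F hF
    (insert k₀ ((finite_castVec_mem (hc k₀).isBounded).toFinset.image g)) fun I _ => h I
  exact hg v (hv _ (Finset.mem_insert_of_mem (Finset.mem_image_of_mem g
    ((Set.Finite.mem_toFinset _).2 (hv k₀ (Finset.mem_insert_self _ _))))))

end FA.Doignon

end
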