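import Fermat.Agent.Doignon.Finite

/-!
# Bodies free of integral points, and sharpness

A body without interior integral points lies in at most `2 ^ n` halfspaces without common interior
integral points; the hulls of the cube's vertices but one show that `2 ^ n` is best.
-/

set_option autoImplicit false

noncomputable section

open Matrix FA.Perfect

namespace FA.Doignon

variable {n : ℕ}

theorem convex_dot_lt (w : Fin n → ℝ) (u : ℝ) : Convex ℝ {x | w ⬝ᵥ x < u} :=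
  convex_halfSpace_lt ⟨dotProduct_add w, fun r x => dotProduct_smul r w x⟩ u

theorem convex_dot_le (w : Fin n → ℝ) (u : ℝ) : Convex ℝ {x | w ⬝ᵥ x ≤ u} :=
  convex_halfSpace_le ⟨dotProduct_add w, fun r x => dotProduct_smul r w x⟩ u

/-- **Bell and Scarf**: a system without integral solutions has a small subsystem without one. -/
theorem exists_infeasible_subsystem {ι : Type*} (a : ι → Fin n → ℝ) (b : ι → ℝ) (s : Finset ι)
    (h : ∀ v, ∃ i ∈ s, b i < a i ⬝ᵥ castVec v) :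
    ∃ I ⊆ s, I.card ≤ 2 ^ n ∧ ∀ v, ∃ i ∈ I, b i < a i ⬝ᵥ castVec v := by
  by_contra! hno
  obtain ⟨v, hv⟩ := exists_common (fun i => {x | a i ⬝ᵥ x ≤ b i})
    (fun i => convex_dot_le _ _) s hno
  obtain ⟨i, hi, hi'⟩ := h v
  exact (hv i hi).not_gt hi'

theorem exists_dot_eq (f : (Fin n → ℝ) →L[ℝ] ℝ) : ∃ w : Fin n → ℝ, ∀ x, w ⬝ᵥ x = f x := by
  refine ⟨fun i => f (Pi.single i 1), fun x => ?_⟩
  conv_rhs => rw [pi_eq_sum_univ' x, map_sum]
  exact Finset.sum_congr rfl fun i _ => by rw [map_smul, smul_eq_mul, mul_comm]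

/-- A point of a body and an interior one: what holds strictly inside holds on the body. -/
theorem dot_le_of_interior {K : Set (Fin n → ℝ)} (hK : Convex ℝ K) {x₀ : Fin n → ℝ}
    (hx₀ : x₀ ∈ interior K) {w : Fin n → ℝ} {u : ℝ} (h : ∀ x ∈ interior K, w ⬝ᵥ x < u)
    {x : Fin n → ℝ} (hx : x ∈ K) : w ⬝ᵥ x ≤ u := by
  by_contra! hlt
  have h0 := h x₀ hx₀
  have hd : 0 < w ⬝ᵥ x - w ⬝ᵥ x₀ := by linarith
  have ha : 0 < (w ⬝ᵥ x - u) / (w ⬝ᵥ x - w ⬝ᵥ x₀) := div_pos (by linarith) hd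
  have hmem := hK.combo_interior_self_mem_interior hx₀ hx ha
    (show 0 ≤ (u - w ⬝ᵥ x₀) / (w ⬝ᵥ x - w ⬝ᵥ x₀) from div_nonneg (by linarith) hd.le)
    (by rw [← add_div, div_eq_one_iff_eq hd.ne']; ring)
  have h1 := h _ hmem
  rw [dotProduct_add, dotProduct_smul, dotProduct_smul, smul_eq_mul, smul_eq_mul,
    div_mul_eq_mul_div, div_mul_eq_mul_div, ← add_div, div_lt_iff₀ hd] at h1
  linarith

theorem dot_lt_of_interior {w : Fin n → ℝ} (hw : w ≠ 0) {u : ℝ} {P : Set (Fin n → ℝ)}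
    (hP : ∀ x ∈ P, w ⬝ᵥ x ≤ u) {x : Fin n → ℝ} (hx : x ∈ interior P) : w ⬝ᵥ x < u := by
  obtain ⟨ε, hε, hball⟩ := Metric.mem_nhds_iff.1 (mem_interior_iff_mem_nhds.1 hx)
  have hpos : 0 < ‖w‖ := norm_pos_iff.2 hw
  have hmem : x + (ε / (2 * ‖w‖)) • w ∈ P := hball (by
    rw [Metric.mem_ball, dist_eq_norm, add_sub_cancel_left, norm_smul,
      Real.norm_of_nonneg (by positivity), div_mul_eq_mul_div, div_lt_iff₀ (by positivity)]
    nlinarith)
  have h := hP _ hmem
  rw [dotProduct_add, dotProduct_smul, smul_eq_mul] at h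
  have hww : 0 < w ⬝ᵥ w :=
    lt_of_le_of_ne (Finset.sum_nonneg fun i _ => mul_self_nonneg (w i)) fun e =>
      hw (dotProduct_self_eq_zero.1 e.symm)
  have := mul_pos (div_pos hε (by positivity : (0 : ℝ) < 2 * ‖w‖)) hww
  linarith

/-- **Lovász**: few halfspaces suffice for a body free of interior integral points. -/
theorem exists_few_halfspaces {K : Set (Fin n → ℝ)} (hK : Convex ℝ K)
    (hb : Bornology.IsBounded K) (hne : (interior K).Nonempty)
    (hfree : ∀ v, castVec v ∉ interior K) :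
    ∃ I : Finset ((Fin n → ℝ) × ℝ), I.card ≤ 2 ^ n ∧ (∀ h ∈ I, ∀ x ∈ K, h.1 ⬝ᵥ x ≤ h.2) ∧
      ∀ v, castVec v ∉ interior {x | ∀ h ∈ I, h.1 ⬝ᵥ x ≤ h.2} := by
  classical
  obtain ⟨x₀, hx₀⟩ := hne
  obtain ⟨R, hR⟩ := hb.exists_norm_le
  obtain ⟨S, hS⟩ : ∃ S, S = (finite_castVec_mem
      (Metric.isBounded_closedBall (x := (0 : Fin n → ℝ)) (r := R + 1))).toFinset := ⟨_, rfl⟩
  have hsep : ∀ z : Fin n → ℤ, ∃ h : (Fin n → ℝ) × ℝ,
      h.1 ≠ 0 ∧ (∀ x ∈ interior K, h.1 ⬝ᵥ x < h.2) ∧ h.2 ≤ h.1 ⬝ᵥ castVec z := fun z => by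
    obtain ⟨f, hf⟩ := geometric_hahn_banach_open_point hK.interior isOpen_interior (hfree z)
    obtain ⟨w, hw⟩ := exists_dot_eq f
    refine ⟨(w, f (castVec z)), fun h0 => ?_, fun x hx => (hw x).trans_lt (hf x hx), (hw _).ge⟩
    have h1 := (hw x₀).trans_lt (hf x₀ hx₀)
    rw [← hw, show w = 0 from h0, zero_dotProduct, zero_dotProduct] at h1
    exact lt_irrefl _ h1
  choose g hg0 hgK hgz using hsep
  obtain ⟨box, hbox⟩ : ∃ box : Fin n × Bool → (Fin n → ℝ) × ℝ,
      box = fun p => (Pi.single p.1 (if p.2 then 1 else -1), R + 1) := ⟨_, rfl⟩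
  have hbox0 : ∀ p, (box p).1 ≠ 0 := fun p h => by
    have := congrFun h p.1
    rw [hbox] at this
    cases hp : p.2 <;> simp [hp] at this
  have hboxK : ∀ p, ∀ x ∈ interior K, (box p).1 ⬝ᵥ x < (box p).2 := fun p x hx => by
    have h1 : |x p.1| ≤ R := (norm_le_pi_norm x p.1).trans (hR x (interior_subset hx))
    rw [hbox]
    show Pi.single p.1 _ ⬝ᵥ x < R + 1
    rw [single_dotProduct]
    rw [abs_le] at h1
    split_ifs <;> linarith
  obtain ⟨H, hH⟩ : ∃ H, H = S.image g ∪ Finset.univ.image box := ⟨_, rfl⟩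
  have hHok : ∀ h ∈ H, h.1 ≠ 0 ∧ ∀ x ∈ interior K, h.1 ⬝ᵥ x < h.2 := fun h hh => by
    rw [hH, Finset.mem_union, Finset.mem_image, Finset.mem_image] at hh
    rcases hh with ⟨z, -, rfl⟩ | ⟨p, -, rfl⟩
    exacts [⟨hg0 z, hgK z⟩, ⟨hbox0 p, hboxK p⟩]
  have key : ∃ I ⊆ H, I.card ≤ 2 ^ n ∧ ∀ v, ∃ h ∈ I, h.2 ≤ h.1 ⬝ᵥ castVec v := by
    by_contra! hno
    obtain ⟨v, hv⟩ := exists_common (fun h : (Fin n → ℝ) × ℝ => {x | h.1 ⬝ᵥ x < h.2})
      (fun h => convex_dot_lt _ _) H hno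
    by_cases hvS : v ∈ S
    · have hmem : g v ∈ H := by
        rw [hH]
        exact Finset.mem_union_left _ (Finset.mem_image_of_mem g hvS)
      exact (hv _ hmem).not_ge (hgz v)
    · refine hvS ?_
      rw [hS, Set.Finite.mem_toFinset]
      show castVec v ∈ Metric.closedBall 0 (R + 1)
      rw [mem_closedBall_zero_iff, pi_norm_le_iff_of_nonneg (by
        linarith [(norm_nonneg x₀).trans (hR x₀ (interior_subset hx₀))])]
      intro i
      have h1 : ∀ c, (box (i, c)).1 ⬝ᵥ castVec v < (box (i, c)).2 := fun c => hv _ (by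
        rw [hH]
        exact Finset.mem_union_right _ (Finset.mem_image_of_mem box (Finset.mem_univ _)))
      have h2 := h1 true
      have h3 := h1 false
      simp only [hbox, single_dotProduct, ↓reduceIte, Bool.false_eq_true, one_mul,
        neg_one_mul] at h2 h3
      rw [Real.norm_eq_abs, abs_le]
      constructor <;> linarith
  obtain ⟨I, hI, hcard, hno⟩ := key
  refine ⟨I, hcard, fun h hh x hx => dot_le_of_interior hK hx₀ (hHok h (hI hh)).2 hx,
    fun v hv => ?_⟩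
  obtain ⟨h, hh, hle⟩ := hno v
  exact hle.not_gt (dot_lt_of_interior (P := {x | ∀ h ∈ I, h.1 ⬝ᵥ x ≤ h.2}) (hHok h (hI hh)).1
    (fun x hx => hx h hh) hv)

/-- A vertex of the cube. -/
def vertex (d : Fin n → Bool) : Fin n → ℤ := fun i => if d i then 1 else 0

/-- **`2 ^ n` is best.** -/
theorem exists_sharp (n : ℕ) :
    ∃ F : (Fin n → Bool) → Set (Fin n → ℝ), (∀ c, Convex ℝ (F c)) ∧
      (∀ I : Finset (Fin n → Bool), I.card < 2 ^ n → ∃ v, ∀ c ∈ I, castVec v ∈ F c) ∧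
      ¬∃ v, ∀ c, castVec v ∈ F c := by
  classical
  refine ⟨fun c => convexHull ℝ {x | ∃ d, d ≠ c ∧ castVec (vertex d) = x},
    fun c => convex_convexHull ℝ _, fun I hI => ?_, ?_⟩
  · obtain ⟨e, -, he⟩ := Finset.exists_of_ssubset (Finset.ssubset_univ_iff.2 fun h : I = _ => by
      rw [h, Finset.card_univ, Fintype.card_fun, Fintype.card_bool, Fintype.card_fin] at hI
      exact lt_irrefl _ hI)
    exact ⟨vertex e, fun c hc => subset_convexHull ℝ _ ⟨e, fun h => he (h ▸ hc), rfl⟩⟩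
  · rintro ⟨v, hv⟩
    have hbox : ∀ c, convexHull ℝ {x | ∃ d, d ≠ c ∧ castVec (vertex d) = x} ⊆
        Set.Icc (0 : Fin n → ℝ) 1 := fun c => by
      refine convexHull_min ?_ (convex_Icc _ _)
      rintro _ ⟨d, -, rfl⟩
      constructor <;> intro i <;> cases hd : d i <;> simp [castVec, vertex, hd]
    have h01 := hbox _ (hv fun _ => false)
    have hv01 : ∀ i, v i = 0 ∨ v i = 1 := fun i => by
      have h1 : (0 : ℝ) ≤ v i := h01.1 i
      have h2 : (v i : ℝ) ≤ 1 := h01.2 i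
      have h1' : 0 ≤ v i := by exact_mod_cast h1
      have h2' : v i ≤ 1 := by exact_mod_cast h2
      omega
    obtain ⟨e, he⟩ : ∃ e : Fin n → Bool, e = fun i => decide (v i = 1) := ⟨_, rfl⟩
    obtain ⟨σ, hσ⟩ : ∃ σ : Fin n → ℝ, σ = fun i => 2 * (v i : ℝ) - 1 := ⟨_, rfl⟩
    have hdiff : ∀ d, d ≠ e → σ ⬝ᵥ castVec (vertex d) ≤ σ ⬝ᵥ castVec v - 1 := fun d hd => by
      obtain ⟨j, hj⟩ := Function.ne_iff.1 hd
      have hterm : ∀ i, σ i * castVec (vertex d) i ≤
          σ i * castVec v i - (if i = j then 1 else 0) := fun i => by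
        by_cases hij : i = j
        · subst hij
          rw [if_pos rfl]
          rw [he] at hj
          rcases hv01 i with h | h <;> cases hdi : d i <;>
            simp [h, hdi] at hj <;> simp [hσ, castVec, vertex, h, hdi] <;> norm_num
        · rw [if_neg hij, sub_zero]
          rcases hv01 i with h | h <;> cases hdi : d i <;> simp [hσ, castVec, vertex, h, hdi]
      refine (Finset.sum_le_sum fun i _ => hterm i).trans_eq ?_
      rw [Finset.sum_sub_distrib, Finset.sum_ite_eq' Finset.univ j, if_pos (Finset.mem_univ j)]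
      rfl
    have hsub : convexHull ℝ {x | ∃ d, d ≠ e ∧ castVec (vertex d) = x} ⊆
        {x | σ ⬝ᵥ x ≤ σ ⬝ᵥ castVec v - 1} := by
      refine convexHull_min ?_ (convex_dot_le _ _)
      rintro _ ⟨d, hd, rfl⟩
      exact hdiff d hd
    have := hsub (hv e)
    simp only [Set.mem_ofPred_eq] at this
    linarith

end FA.Doignon

end
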